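/-
Cluster GAL, block M (multiplier map), architect helper269.  SKELETON: exact statements of all nodes.
Every node goes to its own file `Fermat/Agent/GAL/Mult/<Name>.lean` (see the task table, GAL-M*).
This file is never imported by a graded file.
-/
import Fermat.Agent.GAL.Mult.Defs
import Fermat.Agent.GAL.E.Defs
import Fermat.Agent.Lib.HolRoot
import Fermat.Agent.S24.CL.PlaceOfVal
import Fermat.Agent.S24.CL.Degree
import Fermat.Agent.S24.Export.Ramification

set_option autoImplicit false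

namespace Fermat.Agent.GAL.Mult

open UpperHalfPlane Filter Topology ModularCurve AlgebraicCurve CongruenceSubgroup IntermediateField
open Fermat.Agent.S24 Fermat.Agent.S24.B Fermat.Agent.Lib.HeckeHom
open scoped MatrixGroups Real Manifold WithZero OnePoint

/-! ### M01  API.lean : compatibilities of the embeddings `LN N → LL N → MM` -/

section API
variable {N : ℕ} [NeZero N]

theorem lnToLL_smul (γ : SL(2, ℤ)) (x : LN N) : lnToLL N (γ • x) = γ • lnToLL N x := by
  sorry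

theorem embL_smul (γ : SL(2, ℤ)) (x : LL N) : embL N (γ • x) = sl γ • embL N x := by
  sorry

theorem texpLL_lnToLL (x : LN N) : texpLL N (lnToLL N x) = texpL N x := by
  sorry

theorem wexpM_embL_lnToLL (τ₀ : ℍ) (x : LN N) :
    wexpM τ₀ (embL N (lnToLL N x)) = wexpL N τ₀ x := by
  sorry

theorem texpLL_PsiL (f : FN N) : texpLL N (PsiL N f) = phi1 N f := by
  sorry

theorem smul_PsiL_of_mem_Gamma0 (γ : SL(2, ℤ)) (hγ : γ ∈ Gamma0 N) (f : FN N) :
    γ • PsiL N f = PsiL N f := by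
  sorry

theorem mem_Gamma0_of_smul_PsiL (γ : SL(2, ℤ)) (h : ∀ f : FN N, γ • PsiL N f = PsiL N f) :
    γ ∈ Gamma0 N := by
  sorry

theorem smul_real_of_mem_Gamma0 (γ : SL(2, ℤ)) (hγ : γ ∈ Gamma0 N) (f : FN N) :
    sl γ • real N f = real N f := by
  sorry

/-- powers of `T` act on `t`-expansions by twists -/
theorem texpLL_T_pow_smul (k : ℕ) (g : LL N) :
    texpLL N (ModularGroup.T ^ k • g) = twist ((zetaK N)⁻¹ ^ k) (texpLL N g) := by
  sorry

/-- powers of a rotation act on `w`-expansions by twists -/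
theorem wexpM_pow_smul (τ₀ : ℍ) (δ : GL(2, ℝ)⁺) (μ : ℂˣ)
    (hδ : ∀ᶠ w in 𝓝 (0 : ℂ),
      δ⁻¹ • ofComplex (discInv τ₀ w) = ofComplex (discInv τ₀ ((μ : ℂ) * w))) (k : ℕ) (g : MM) :
    wexpM τ₀ (δ ^ k • g) = twist (μ ^ k) (wexpM τ₀ g) := by
  sorry

end API

/-! ### M02  InvariantsLL.lean : the `SL(2,ℤ)`-invariants of `LL N` are `ℚ̄(j)`
(copy of S24/B/Invariants.lean with `AB N` instead of `AL N`) -/

section Inv
variable {N : ℕ} [NeZero N]

theorem invariants_LL (g : LL N) (hg : ∀ γ : SL(2, ℤ), γ • g = g) :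
    ∃ r ∈ Kbar⟮jF N⟯, PsiL N r = g := by
  sorry

theorem isUniformization_LL : IsUniformization (jF N) (Gamma0 N) (PsiL N) := by
  sorry

end Inv

/-! ### M03  FixedField.lean : the fixed field of `H` in an abstract uniformisation is `Ψ(F)` -/

theorem mem_range_of_fixed {K F L G : Type*} [Field K] [Field F] [Algebra K F] [Field L]
    [Algebra K L] [Group G] [MulSemiringAction G L] [CharZero K] {x : F} {H : Subgroup G}
    [H.FiniteIndex] {Ψ : F →ₐ[K] L} (hU : IsUniformization x H Ψ)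
    (hfg : ∃ s : Finset F, IntermediateField.adjoin K (s : Set F) = ⊤)
    (y : L) (hy : ∀ γ ∈ H, γ • y = y) : ∃ f : F, Ψ f = y := by
  sorry

theorem exists_PsiL_eq_of_fixed {N : ℕ} [NeZero N] (y : LL N)
    (hy : ∀ γ ∈ Gamma0 N, γ • y = y) : ∃ f : FN N, PsiL N f = y := by
  sorry

/-! ### M04  DivVal.lean : valuations of Kummer elements (abstract function fields) -/

theorem exists_exp_mul_of_dvd {K F : Type*} [Field K] [Field F] [Algebra K F]
    (W : Valuation F ℤᵐ⁰) (hK : ∀ a : K, a ≠ 0 → W (algebraMap K F a) = 1) (n : ℕ) (u : F)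
    (hu : u ≠ 0) (hdiv : ∀ v : Place K F, (n : ℤ) ∣ v.ord u) :
    ∃ m : ℤ, W u = WithZero.exp ((n : ℤ) * m) := by
  sorry

/-- **local triviality of the multiplier.**  `φ` is a local expansion on a field `M`, `θ` an
endomorphism of `M` acting on expansions by the twist by `ν` and fixing the subfield `Φ(F)`.  If
`h ^ n = Φ u` with `n ∣ div u` and `θ h = ξ h` with `ξ` a constant, then `ξ = 1`. -/
theorem twist_trivial {K F M C : Type*} [Field K] [Field F] [Algebra K F] [Field M] [Field C]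
    (Φ : F →+* M) (φ : M →+* LaurentSeries C)
    (hφK : ∀ a : K, a ≠ 0 → (φ (Φ (algebraMap K F a))).order = 0)
    (θ : M →+* M) (ν : Cˣ) (hθ : ∀ x : M, φ (θ x) = twist ν (φ x))
    (hfix : ∀ f : F, θ (Φ f) = Φ f) (n : ℕ) (hn : 0 < n) (u : F) (hu : u ≠ 0)
    (hdiv : ∀ v : Place K F, (n : ℤ) ∣ v.ord u) (h : M) (hh : h ^ n = Φ u)
    (ξ : M) (c : C) (hξ : φ ξ = HahnSeries.C c) (hθh : θ h = ξ * h) : c = 1 := by
  sorry

/-! ### M05  FormalRoot.lean : `n`-th roots of Laurent series -/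

theorem exists_pow_eq_laurent {K : Type*} [Field K] [IsAlgClosed K] [CharZero K] (n : ℕ)
    (hn : 0 < n) (s : LaurentSeries K) (hs : s ≠ 0) (hord : (n : ℤ) ∣ s.order) :
    ∃ r : LaurentSeries K, r ^ n = s := by
  sorry

/-! ### M06  RootPeriodic.lean : a holomorphic `n`-th root of a periodic function with a nonzero
limit at `i∞` is periodic -/

theorem periodic_of_pow_eq {n : ℕ} (hn : 0 < n) {p : ℝ} {g c : ℍ → ℂ} (hg : MDiff g)
    (hgc : ∀ τ, g τ ^ n = c τ) (hper : ∀ τ : ℍ, c (p +ᵥ τ) = c τ) {c₀ : ℂ} (hc₀ : c₀ ≠ 0)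
    (hlim : Tendsto c atImInfty (𝓝 c₀)) : ∀ τ : ℍ, g (p +ᵥ τ) = g τ := by
  sorry

/-! ### M07  RootTExp.lean : a holomorphic `n`-th root of a function with a `t`-expansion of order
divisible by `n` has a `t`-expansion (from M05, M06, Mathlib `hasSum_qExpansion`) -/

theorem exists_hasTExp_of_pow_eq {N : ℕ} [NeZero N] {n : ℕ} (hn : 0 < n) {f c : ℍ → ℂ}
    (hf : MDiff f) (hfc : ∀ τ, f τ ^ n = c τ) {s : LaurentSeries Kbar} (hs : HasTExp N c s)
    (hs0 : s ≠ 0) (hord : (n : ℤ) ∣ s.order) : ∃ s' : LaurentSeries Kbar, HasTExp N f s' := by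
  sorry

/-! ### M08  RootAdm.lean : a holomorphic `n`-th root of an element of `AL N` is admissible -/

theorem isAdm_of_pow_eq {N : ℕ} [NeZero N] {n : ℕ} (hn : 0 < n) {h₀ : ℍ → ℂ} (hh : MDiff h₀)
    (c : AL N) (hc : c ≠ 0) (hpow : ∀ τ, h₀ τ ^ n = c.1 τ)
    (hord : ∀ γ : SL(2, ℤ), (n : ℤ) ∣ (texp N (γ • c)).order) : IsAdm N h₀ := by
  sorry

/-! ### M09  KumOrd.lean : local orders of Kummer elements (from M04) -/

section KumOrd
variable {N : ℕ} [NeZero N]

theorem dvd_order_wexpL (n : ℕ) (u : FN N) (hu : u ≠ 0)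
    (hdiv : ∀ v : Place Kbar (FN N), (n : ℤ) ∣ v.ord u) (τ₀ : ℍ) :
    (n : ℤ) ∣ (wexpL N τ₀ (Psi N u)).order := by
  sorry

theorem dvd_order_texpL_smul (n : ℕ) (u : FN N) (hu : u ≠ 0)
    (hdiv : ∀ v : Place Kbar (FN N), (n : ℤ) ∣ v.ord u) (γ : SL(2, ℤ)) :
    (n : ℤ) ∣ (texpL N (γ • Psi N u)).order := by
  sorry

end KumOrd

/-! ### M10  Root.lean : Kummer elements have `n`-th roots in `LL N`
(from M08, M09, `Lib.HolRoot.exists_root`) -/

theorem exists_root_LL {N : ℕ} [NeZero N] {n : ℕ} (hn : 0 < n) (u : FN N) (hu : u ≠ 0)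
    (hdiv : ∀ v : Place Kbar (FN N), (n : ℤ) ∣ v.ord u) : ∃ h : LL N, h ^ n = PsiL N u := by
  sorry

/-! ### M11  IsMult.lean : formal properties of the relation `IsMult` -/

section IsMult
variable {N n : ℕ} [NeZero N] [NeZero n]

/-- in a field containing `ℚ̄`, the `n`-th roots of unity are the powers of `ζ_n` -/
theorem exists_zeta_pow_of_pow_eq_one {M : Type*} [Field M] [Algebra Kbar M] (x : M)
    (hx : x ^ n = 1) : ∃ a : ZMod n, x = algebraMap Kbar M ((zetaK n : Kbar) ^ a.val) := by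
  sorry

theorem zeta_pow_val_injective {a b : ZMod n}
    (h : (zetaK n : Kbar) ^ a.val = (zetaK n : Kbar) ^ b.val) : a = b := by
  sorry

theorem zeta_pow_val_add (a b : ZMod n) :
    (zetaK n : Kbar) ^ (a + b).val = (zetaK n : Kbar) ^ a.val * (zetaK n : Kbar) ^ b.val := by
  sorry

/-- every `n`-th root in `MM` of an element of `FN N` has a multiplier system -/
theorem exists_isMult_of_root (u : FN N) (hu : u ≠ 0) (h : MM) (hh : h ^ n = real N u) :
    ∃ ψ : Additive (Gamma0 N) →+ ZMod n, ∀ γ : Gamma0 N, (sl (γ : SL(2, ℤ)))⁻¹ • h =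
      algebraMap Kbar MM ((zetaK n : Kbar) ^ (ψ (Additive.ofMul γ)).val) * h := by
  sorry

theorem IsMult.unique {u : FN N} {ψ ψ' : Additive (Gamma0 N) →+ ZMod n} (h : IsMult N n u ψ)
    (h' : IsMult N n u ψ') : ψ = ψ' := by
  sorry

theorem IsMult.mul {u u' : FN N} {ψ ψ' : Additive (Gamma0 N) →+ ZMod n} (h : IsMult N n u ψ)
    (h' : IsMult N n u' ψ') : IsMult N n (u * u') (ψ + ψ') := by
  sorry

theorem isMult_pow (v : FN N) (hv : v ≠ 0) : IsMult N n (v ^ n) 0 := by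
  sorry

theorem exists_isMult (u : FN N) (hu : u ≠ 0)
    (hdiv : ∀ v : Place Kbar (FN N), (n : ℤ) ∣ v.ord u) :
    ∃ ψ : Additive (Gamma0 N) →+ ZMod n, IsMult N n u ψ := by
  sorry

/-- the root can be taken in `LL N` -/
theorem IsMult.exists_LL {u : FN N} {ψ : Additive (Gamma0 N) →+ ZMod n} (h : IsMult N n u ψ)
    (hdiv : ∀ v : Place Kbar (FN N), (n : ℤ) ∣ v.ord u) :
    ∃ h₁ : LL N, h₁ ≠ 0 ∧ h₁ ^ n = PsiL N u ∧ ∀ γ : Gamma0 N, (γ : SL(2, ℤ))⁻¹ • h₁ =
      algebraMap Kbar (LL N) ((zetaK n : Kbar) ^ (ψ (Additive.ofMul γ)).val) * h₁ := by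
  sorry

end IsMult

/-! ### M12  Kills.lean : the multiplier system kills elliptic and parabolic elements
(from M01, M04 `twist_trivial`, M11) -/

section Kills
variable {N n : ℕ} [NeZero N] [NeZero n]

theorem IsMult.kills_S {u : FN N} {ψ : Additive (Gamma0 N) →+ ZMod n} (h : IsMult N n u ψ)
    (hdiv : ∀ v : Place Kbar (FN N), (n : ℤ) ∣ v.ord u) : Kills ψ ModularGroup.S := by
  sorry

theorem IsMult.kills_ST {u : FN N} {ψ : Additive (Gamma0 N) →+ ZMod n} (h : IsMult N n u ψ)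
    (hdiv : ∀ v : Place Kbar (FN N), (n : ℤ) ∣ v.ord u) :
    Kills ψ (ModularGroup.S * ModularGroup.T) := by
  sorry

theorem IsMult.kills_T {u : FN N} {ψ : Additive (Gamma0 N) →+ ZMod n} (h : IsMult N n u ψ)
    (hdiv : ∀ v : Place Kbar (FN N), (n : ℤ) ∣ v.ord u) : Kills ψ ModularGroup.T := by
  sorry

end Kills

/-! ### M13  Inj.lean : injectivity (from M03, M11) -/

theorem IsMult.exists_pow_eq {N n : ℕ} [NeZero N] [NeZero n] {u : FN N} (h : IsMult N n u 0)
    (hdiv : ∀ v : Place Kbar (FN N), (n : ℤ) ∣ v.ord u) : ∃ v : FN N, u = v ^ n := by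
  sorry

/-! ### M14  Hecke.lean : formal Hecke equivariance in `MM` -/

theorem IsMult.hecke {N n : ℕ} [NeZero N] [NeZero n] {ι : Type*} [Fintype ι]
    {α : ι → GL (Fin 2) ℝ} (hα : IsHeckeFamily (incl N) α) (hdet : ∀ i, 0 < (α i).det.val)
    {u u' : FN N}
    (huu' : real N u' = ∏ i, (⟨α i, hdet i⟩ : GL(2, ℝ)⁺)⁻¹ • real N u)
    {ψ : Additive (Gamma0 N) →+ ZMod n} (h : IsMult N n u ψ) :
    IsMult N n u' (hα.heckeHom ψ) := by
  sorry

/-! ### M15  NiceFrac.lean : elements of `FN N` are quotients of holomorphic functions with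
`q`-expansions -/

theorem exists_nice_fraction {N : ℕ} [NeZero N] (u : FN N) :
    ∃ (a b : Hol) (sa sb : LaurentSeries Kbar), HasTExp 1 a.1 sa ∧ HasTExp 1 b.1 sb ∧ sb ≠ 0 ∧
      (u : LaurentSeries Kbar) * sb = sa ∧ real N u * algebraMap Hol MM b = algebraMap Hol MM a := by
  sorry

/-! ### M16  HeckeBridge.lean : from the formal product formula (block E, `qExpand_heckeF`) to the
product formula in `MM` (from M15 and S24/B `hasTExp_tri`) -/

theorem repT_det_pos (ℓ : ℕ) [NeZero ℓ] (x : OnePoint (ZMod ℓ)) : 0 < (repT ℓ x).det.val := by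
  sorry

theorem real_eq_prod_of_qExpand {N ℓ : ℕ} [NeZero N] [NeZero ℓ] (u u' : FN N)
    (hq : qExpand Kbar ℓ (u' : LaurentSeries Kbar) =
      qExpand Kbar (ℓ * ℓ) (u : LaurentSeries Kbar) *
        ∏ b ∈ Finset.range ℓ, twist (zetaK ℓ ^ b) (u : LaurentSeries Kbar)) :
    real N u' = ∏ x : OnePoint (ZMod ℓ),
      (⟨repT ℓ x, repT_det_pos ℓ x⟩ : GL(2, ℝ)⁺)⁻¹ • real N u := by
  sorry

/-! ### M17  Main.lean : the multiplier map on the Kummer model -/

theorem exists_multHom (N n : ℕ) [NeZero N] [NeZero n] :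
    ∃ μ : E.W N n →+ (Additive (Gamma0 N) →+ ZMod n),
      (∀ u : E.kum N n, IsMult N n ((u : (FN N)ˣ) : FN N) (μ (E.cls u))) ∧
      Function.Injective μ ∧
      (∀ w, Kills (μ w) ModularGroup.S ∧ Kills (μ w) (ModularGroup.S * ModularGroup.T) ∧
        Kills (μ w) ModularGroup.T) := by
  sorry

end Fermat.Agent.GAL.Mult
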