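/-
Cluster GAL, block M (multiplier map), architect helper269.  SKELETON, part 2 (nodes M18-M20):
Hecke equivariance on the Kummer model, comparison with `Pic⁰[n]`, bijectivity by counting.
This file is never imported by a graded file.
-/
import Fermat.Agent.GAL.Mult.Defs
import Fermat.Agent.GAL.E.HeckeOp
import Fermat.Agent.S16.Lift.Count

set_option autoImplicit false

namespace Fermat.Agent.GAL.Mult

open UpperHalfPlane ModularCurve AlgebraicCurve CongruenceSubgroup
open Fermat.Agent.S24 Fermat.Agent.S24.B Fermat.Agent.Lib.HeckeHom Fermat.Agent.S16.Lift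
open scoped MatrixGroups

/-! ### M18  MultT.lean : Hecke equivariance for a multiplicative Hecke operator of block E
(from M14 `IsMult.hecke`, M16 `real_eq_prod_of_qExpand`, `repT_det_pos`) -/

theorem IsMult.heckeOp {N n ℓ : ℕ} [NeZero N] [NeZero n] [NeZero ℓ] (H : E.HeckeOp N ℓ)
    (hℓ : ℓ.Prime) (hℓN : ¬ ℓ ∣ N) {u : FN N} {ψ : Additive (Gamma0 N) →+ ZMod n}
    (h : IsMult N n u ψ) : IsMult N n (H.T u) (heckeHomT hℓ hℓN ψ) := by
  sorry

/-! ### M19  PicIso.lean : the Kummer model is `Pic⁰[n]` -/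

theorem card_W_eq_card_torsion (N n : ℕ) [NeZero N] (hn : 0 < n) :
    Nat.card (E.W N n) = Nat.card (Pic0.torsion Kbar (FN N) n) := by
  sorry

/-! ### M20  Package.lean : the multiplier isomorphism (from M17, M18, M19 and a count) -/

theorem exists_mult_package (N n : ℕ) [NeZero N] [NeZero n]
    (hcard : Nat.card (homPE N (ZMod n)) ≤ Nat.card (Pic0.torsion Kbar (FN N) n)) :
    ∃ μ : E.W N n →+ (Additive (Gamma0 N) →+ ZMod n),
      Function.Injective μ ∧ (∀ w, μ w ∈ homPE N (ZMod n)) ∧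
      (∀ ψ ∈ homPE N (ZMod n), ∃ w, μ w = ψ) ∧
      ∀ (ℓ : ℕ) [NeZero ℓ] (H : E.HeckeOp N ℓ) (hℓ : ℓ.Prime) (hℓN : ¬ ℓ ∣ N) (w : E.W N n),
        μ (H.TW n w) = heckeHomT hℓ hℓN (μ w) := by
  sorry

end Fermat.Agent.GAL.Mult
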